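/-
S26 / block G (pure field theory, Mathlib only): definitions of the contract.
-/
import Mathlib

set_option autoImplicit false

universe u

namespace Fermat.Agent.S26.G

/-- `O · W = ϑ · O` : the element `ϑ ≠ 0` generates the `O`-span of the set `W`. -/
def IsValGen {F : Type u} [Field F] (O : ValuationSubring F) (W : Set F) (ϑ : F) : Prop :=
  ϑ ≠ 0 ∧ (∀ w ∈ W, w / ϑ ∈ O) ∧ ∃ w ∈ W, w ≠ 0 ∧ ϑ / w ∈ O

/-- the valuation subring contains the constants -/
def ContainsConst (K : Type u) {F : Type u} [Field K] [Field F] [Algebra K F]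
    (O : ValuationSubring F) : Prop :=
  ∀ a : K, algebraMap K F a ∈ O

/-- the set of ratios of elements of a subspace -/
def ratios {K F : Type u} [Field K] [Field F] [Algebra K F] (V : Submodule K F) : Set F :=
  {x | ∃ v ∈ V, ∃ w ∈ V, w ≠ 0 ∧ x = v / w}

/-- `u` is a unit of `O` -/
def IsValUnit {F : Type u} [Field F] (O : ValuationSubring F) (u : F) : Prop :=
  u ∈ O ∧ u⁻¹ ∈ O ∧ u ≠ 0

end Fermat.Agent.S26.G
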