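/-
S26 / block G (Theorem B, pure field theory, Mathlib only; architect helper187).
Definitions: the Hilbert function `hilb V m = dim_K V^m` of a `K`-subspace `V` of a field `Ω`
(powers in the semiring `Submodule K Ω`) and the ratio field `ratioField V = K(v / w : v, w ∈ V)`.
-/
import Fermat.Agent.S26.G.Defs

set_option autoImplicit false

universe u

namespace Fermat.Agent.S26.G

open Module IntermediateField

variable {K Ω : Type u} [Field K] [Field Ω] [Algebra K Ω]

/-- The Hilbert function `m ↦ dim_K V ^ m`. -/
noncomputable def hilb (V : Submodule K Ω) (m : ℕ) : ℕ := Module.finrank K ↥(V ^ m)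

/-- The field generated by the ratios of elements of `V`. -/
def ratioField (V : Submodule K Ω) : IntermediateField K Ω :=
  IntermediateField.adjoin K (ratios V)

theorem hilb_def (V : Submodule K Ω) (m : ℕ) : hilb V m = Module.finrank K ↥(V ^ m) := rfl

theorem ratioField_def (V : Submodule K Ω) :
    ratioField V = IntermediateField.adjoin K (ratios V) := rfl

theorem div_mem_ratioField_of_mem {V : Submodule K Ω} {v w : Ω} (hv : v ∈ V) (hw : w ∈ V) :
    v / w ∈ ratioField V := by
  by_cases h : w = 0
  · rw [h, div_zero]
    exact zero_mem _
  · exact IntermediateField.subset_adjoin K _ ⟨v, hv, w, hw, h, rfl⟩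

end Fermat.Agent.S26.G
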