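/-
S26 / block G (Theorem B, pure field theory, Mathlib only; architect helper187).
LEAF G-32.  Elementary inequalities on natural numbers.
Proof.  `bound_of_step`: first part with `j := c + 1`:
`d * (c+1)^g ≤ A * (d * H (c+1)) ≤ A * H (e * (2c+1)) ≤ A * C * (e * (2c+1))^g ≤ A * C * 2^g * e^g * (c+1)^g`, cancel `(c+1)^g > 0`
(`Nat.le_of_mul_le_mul_right`).  Second part with `j := c' + 1`.
`eq_of_pow_le_mul_pow`: by symmetry it suffices `x ≤ y`; if `y < x`: `y = 0` contradicts `h1 1`; else cast to `ℝ`: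
`(x / y) ^ k ≤ M` for all `k` contradicts `tendsto_pow_atTop_atTop_of_one_lt` (or `one_add_mul_le_pow`:
`(y + 1) ^ k ≥ y ^ k + k * y ^ (k - 1)`; take `k := M * y + 1`).
-/
import Fermat.Agent.S26.G.Defs

set_option autoImplicit false

namespace Fermat.Agent.S26.G

theorem bound_of_step {g A C d e c c' : ℕ} (H : ℕ → ℕ) (he : 0 < e)
    (hL : ∀ m, m ^ g ≤ A * H m) (hU : ∀ m, 1 ≤ m → H m ≤ C * m ^ g)
    (h1 : ∀ j, d * H j ≤ H (e * (j + c))) (h2 : ∀ j, H (e * j) ≤ d * H (j + c')) :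
    d ≤ A * C * 2 ^ g * e ^ g ∧ e ^ g ≤ A * C * 2 ^ g * d := by
  constructor
  · have hpos : 0 < (c + 1) ^ g := pow_pos (Nat.succ_pos c) g
    apply Nat.le_of_mul_le_mul_right _ hpos
    have a1 := hL (c + 1)
    have a2 := h1 (c + 1)
    have a3 := hU (e * (c + 1 + c)) (Nat.mul_pos he (by omega))
    have a4 : (e * (c + 1 + c)) ^ g ≤ (e * (2 * (c + 1))) ^ g :=
      Nat.pow_le_pow_left (Nat.mul_le_mul_left e (by omega)) g
    calc d * (c + 1) ^ g ≤ d * (A * H (c + 1)) := Nat.mul_le_mul_left d a1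
      _ = A * (d * H (c + 1)) := by ring
      _ ≤ A * H (e * (c + 1 + c)) := Nat.mul_le_mul_left A a2
      _ ≤ A * (C * (e * (c + 1 + c)) ^ g) := Nat.mul_le_mul_left A a3
      _ ≤ A * (C * (e * (2 * (c + 1))) ^ g) :=
        Nat.mul_le_mul_left A (Nat.mul_le_mul_left C a4)
      _ = A * C * 2 ^ g * e ^ g * (c + 1) ^ g := by
        rw [mul_pow, mul_pow]
        ring
  · have hpos : 0 < (c' + 1) ^ g := pow_pos (Nat.succ_pos c') g
    apply Nat.le_of_mul_le_mul_right _ hpos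
    have a1 := hL (e * (c' + 1))
    have a2 := h2 (c' + 1)
    have a3 := hU (c' + 1 + c') (by omega)
    have a4 : (c' + 1 + c') ^ g ≤ (2 * (c' + 1)) ^ g := Nat.pow_le_pow_left (by omega) g
    calc e ^ g * (c' + 1) ^ g = (e * (c' + 1)) ^ g := (mul_pow _ _ _).symm
      _ ≤ A * H (e * (c' + 1)) := a1
      _ ≤ A * (d * H (c' + 1 + c')) := Nat.mul_le_mul_left A a2
      _ ≤ A * (d * (C * (c' + 1 + c') ^ g)) :=
        Nat.mul_le_mul_left A (Nat.mul_le_mul_left d a3)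
      _ ≤ A * (d * (C * (2 * (c' + 1)) ^ g)) :=
        Nat.mul_le_mul_left A (Nat.mul_le_mul_left d (Nat.mul_le_mul_left C a4))
      _ = A * C * 2 ^ g * d * (c' + 1) ^ g := by
        rw [mul_pow]
        ring

private theorem numeric_bernoulli (y n : ℕ) :
    y ^ (n + 1) + (n + 1) * y ^ n ≤ (y + 1) ^ (n + 1) := by
  induction n with
  | zero => simp
  | succ n ih =>
    have h : (y + 1) * (y ^ (n + 1) + (n + 1) * y ^ n) =
        y ^ (n + 1 + 1) + (n + 1 + 1) * y ^ (n + 1) + (n + 1) * y ^ n := by ring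
    calc y ^ (n + 1 + 1) + (n + 1 + 1) * y ^ (n + 1)
        ≤ y ^ (n + 1 + 1) + (n + 1 + 1) * y ^ (n + 1) + (n + 1) * y ^ n := Nat.le_add_right _ _
      _ = (y + 1) * (y ^ (n + 1) + (n + 1) * y ^ n) := h.symm
      _ ≤ (y + 1) * (y + 1) ^ (n + 1) := Nat.mul_le_mul_left _ ih
      _ = (y + 1) ^ (n + 1 + 1) := by ring

private theorem numeric_le {x y M : ℕ} (h1 : ∀ k, x ^ k ≤ M * y ^ k) : x ≤ y := by
  by_contra h
  have hxy : y + 1 ≤ x := by omega
  have a1 := h1 (M * y + 1)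
  have a2 : (y + 1) ^ (M * y + 1) ≤ x ^ (M * y + 1) := Nat.pow_le_pow_left hxy _
  have a3 := numeric_bernoulli y (M * y)
  have hpos : 0 < y ^ (M * y) := by
    rcases Nat.eq_zero_or_pos y with rfl | hy
    · simp
    · exact pow_pos hy _
  have a4 : M * y ^ (M * y + 1) = M * y * y ^ (M * y) := by ring
  have a5 : (M * y + 1) * y ^ (M * y) = M * y * y ^ (M * y) + y ^ (M * y) := by ring
  omega

theorem eq_of_pow_le_mul_pow {x y M : ℕ} (h1 : ∀ k, x ^ k ≤ M * y ^ k)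
    (h2 : ∀ k, y ^ k ≤ M * x ^ k) : x = y :=
  le_antisymm (numeric_le h1) (numeric_le h2)

end Fermat.Agent.S26.G
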