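/-
S26 / block G (Theorem B, pure field theory, Mathlib only; architect helper187).
LEAF G-10.  `U ⊆ E` a finite dimensional `K`-space, `β` linearly independent over `E`: `dim_K (U β) ≥ ρ dim_K U`.
Proof.  `u : Fin s → E` := a `K`-basis of `U` viewed in `E`; `LinearIndependent.smul` (tower `K ⊆ E ⊆ Ω`) shows that
`(l, i) ↦ u l • β i` is `K`-linearly independent; all these elements lie in `U * span K (range β)`; then
`LinearIndependent.fintype_card_le_finrank` for the family co-restricted to the (finite dimensional:
`finiteDimensional_mul`) submodule, or `finrank_span_eq_card` + `Submodule.finrank_mono`.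
-/
import Fermat.Agent.S26.G.Hilb.Fin

set_option autoImplicit false

universe u

namespace Fermat.Agent.S26.G

open Module IntermediateField

variable {K Ω : Type u} [Field K] [Field Ω] [Algebra K Ω]

theorem mul_finrank_le_finrank_mul (E : IntermediateField K Ω) {ρ : ℕ} (β : Fin ρ → Ω)
    (hβ : LinearIndependent E β) (U : Submodule K Ω) [FiniteDimensional K U]
    (hU : ∀ u ∈ U, u ∈ E) :
    ρ * Module.finrank K U ≤ Module.finrank K ↥(U * Submodule.span K (Set.range β)) := by
  classical
  let b := Module.finBasis K U
  let u : Fin (Module.finrank K U) → E := fun l => ⟨(b l : Ω), hU _ (b l).2⟩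
  have hu : LinearIndependent K u := by
    have h1 : LinearIndependent K (fun l => ((b l : U) : Ω)) :=
      b.linearIndependent.map' U.subtype (Submodule.ker_subtype U)
    exact LinearIndependent.of_comp E.val.toLinearMap h1
  have hli : LinearIndependent K
      (fun q : Fin (Module.finrank K U) × Fin ρ => u q.1 • β q.2) :=
    linearIndependent_smul hu hβ
  have : FiniteDimensional K ↥(Submodule.span K (Set.range β)) :=
    FiniteDimensional.span_of_finite K (Set.finite_range β)
  have : FiniteDimensional K ↥(U * Submodule.span K (Set.range β)) := finiteDimensional_mul _ _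
  have hmem : ∀ q : Fin (Module.finrank K U) × Fin ρ,
      u q.1 • β q.2 ∈ U * Submodule.span K (Set.range β) := fun q =>
    Submodule.mul_mem_mul (b q.1).2 (Submodule.subset_span ⟨q.2, rfl⟩)
  have hli' : LinearIndependent K
      (fun q : Fin (Module.finrank K U) × Fin ρ =>
        (⟨u q.1 • β q.2, hmem q⟩ : ↥(U * Submodule.span K (Set.range β)))) :=
    LinearIndependent.of_comp (U * Submodule.span K (Set.range β)).subtype hli
  have hcard := hli'.fintype_card_le_finrank
  rw [Fintype.card_prod, Fintype.card_fin, Fintype.card_fin] at hcard
  rwa [mul_comm]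

end Fermat.Agent.S26.G
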