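/-
S26 / block G (Theorem B, pure field theory, Mathlib only; architect helper187).
LEAF G-11.  A basis of `E2` over `E1` made of elements of `Ω`.
Proof.  `IntermediateField.relfinrank_eq_finrank_of_le hle : relfinrank E1 E2 = finrank E1 (extendScalars hle)`;
`Module.finite_of_finrank_pos`, `Module.finBasis`, reindex along `finCongr`; push forward along the `E1`-linear
inclusion `(extendScalars hle).val.toLinearMap` (`LinearIndependent.map'`, `Submodule.map_span`, `Basis.span_eq`).
-/
import Fermat.Agent.S26.G.Basic

set_option autoImplicit false

universe u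

namespace Fermat.Agent.S26.G

open Module IntermediateField

variable {K Ω : Type u} [Field K] [Field Ω] [Algebra K Ω]

theorem exists_relBasis (E1 E2 : IntermediateField K Ω) (hle : E1 ≤ E2)
    (h : IntermediateField.relfinrank E1 E2 ≠ 0) :
    ∃ β : Fin (IntermediateField.relfinrank E1 E2) → Ω, (∀ i, β i ∈ E2) ∧
      LinearIndependent E1 β ∧ ∀ x ∈ E2, x ∈ Submodule.span E1 (Set.range β) := by
  have e : IntermediateField.relfinrank E1 E2 = finrank E1 (extendScalars hle) :=
    IntermediateField.relfinrank_eq_finrank_of_le hle
  have hpos : 0 < finrank E1 (extendScalars hle) := by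
    rw [← e]
    exact Nat.pos_of_ne_zero h
  haveI : Module.Finite E1 (extendScalars hle) := Module.finite_of_finrank_pos hpos
  obtain ⟨b⟩ : Nonempty (Basis (Fin (IntermediateField.relfinrank E1 E2)) E1
      (extendScalars hle)) :=
    ⟨(Module.finBasis E1 (extendScalars hle)).reindex (finCongr e.symm)⟩
  refine ⟨fun i => ((b i : extendScalars hle) : Ω), fun i => ?_, ?_, fun x hx => ?_⟩
  · exact (mem_extendScalars hle).1 (b i).2
  · have h1 := b.linearIndependent.map' (extendScalars hle).val.toLinearMap
      (LinearMap.ker_eq_bot.2 (extendScalars hle).val.injective)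
    exact h1
  · have hx' : x ∈ extendScalars hle := (mem_extendScalars hle).2 hx
    have h1 : (⟨x, hx'⟩ : extendScalars hle) ∈ Submodule.span E1 (Set.range b) := by
      rw [b.span_eq]
      exact Submodule.mem_top
    have h2 := Submodule.mem_map_of_mem (f := (extendScalars hle).val.toLinearMap) h1
    rw [Submodule.map_span, ← Set.range_comp] at h2
    exact h2

end Fermat.Agent.S26.G
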