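/-
S26 / block G (Theorem B, pure field theory, Mathlib only; architect helper187).
LEAF G-09 (clearing denominators of a finite dimensional space w.r.t. a family `β`).
Proof.  Let `p : Fin t → Ω` be a `K`-basis of `P` (`Module.finBasis K P`).  By `Submodule.mem_span_range_iff_exists_fun`
`p l = ∑ i, c l i • β i` with `c l i : ratioField Y`.  `exists_common_denom Y (fun li : Fin t × Fin δ => (c li.1 li.2 : Ω))`
gives `D`, `a ∈ Y ^ D`, `a ≠ 0`, `a * c l i ∈ Y ^ D`.  Then `a * p l = ∑ i, (a * c l i) * β i ∈ Y ^ D * span K (range β)`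
(`Submodule.sum_mem`, `Submodule.mul_mem_mul`, `Submodule.subset_span`).  Conclude with `mem_span_singleton_mul`
and the fact that `{x | a * x ∈ N}` is a `K`-subspace containing the basis
(write `x = ∑ l, r l • p l`, `Finset.mul_sum`, `mul_smul_comm`).
-/
import Fermat.Agent.S26.G.Hilb.Scale
import Fermat.Agent.S26.G.Ratio.Denom

set_option autoImplicit false

universe u

namespace Fermat.Agent.S26.G

open Module IntermediateField

variable {K Ω : Type u} [Field K] [Field Ω] [Algebra K Ω]

theorem exists_mul_le_pow_mul (Y : Submodule K Ω) {δ : ℕ} (β : Fin δ → Ω) (P : Submodule K Ω)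
    [FiniteDimensional K P]
    (hP : ∀ x ∈ P, x ∈ Submodule.span (ratioField Y) (Set.range β)) :
    ∃ (D : ℕ) (a : Ω), a ∈ Y ^ D ∧ a ≠ 0 ∧
      Submodule.span K {a} * P ≤ Y ^ D * Submodule.span K (Set.range β) := by
  classical
  set b := Module.finBasis K P with hb
  have hex : ∀ l, ∃ c : Fin δ → ratioField Y, ∑ i, c i • β i = (b l : Ω) := fun l =>
    (Submodule.mem_span_range_iff_exists_fun (ratioField Y)).1 (hP _ (b l).2)
  choose c hc using hex
  obtain ⟨D, a, haD, ha0, hac⟩ := exists_common_denom Y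
    (fun li : Fin (Module.finrank K P) × Fin δ => ((c li.1 li.2 : ratioField Y) : Ω))
    (fun li => (c li.1 li.2).2)
  refine ⟨D, a, haD, ha0, ?_⟩
  -- the basis vectors
  have hbas : ∀ l, a * (b l : Ω) ∈ Y ^ D * Submodule.span K (Set.range β) := by
    intro l
    rw [← hc l, Finset.mul_sum]
    refine Submodule.sum_mem _ fun i _ => ?_
    have e : a * (c l i • β i) = (a * ((c l i : ratioField Y) : Ω)) * β i := by
      rw [IntermediateField.smul_def, smul_eq_mul, mul_assoc]
    rw [e]
    exact Submodule.mul_mem_mul (hac (l, i)) (Submodule.subset_span ⟨i, rfl⟩)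
  -- all of `P`
  have hall : ∀ x ∈ P, a * x ∈ Y ^ D * Submodule.span K (Set.range β) := by
    intro x hx
    have e : x = ∑ l, b.repr ⟨x, hx⟩ l • (b l : Ω) := by
      have h1 := congrArg (fun y : P => (y : Ω)) (b.sum_repr ⟨x, hx⟩)
      simp only [Submodule.coe_sum, Submodule.coe_smul] at h1
      exact h1.symm
    rw [e, Finset.mul_sum]
    refine Submodule.sum_mem _ fun l _ => ?_
    rw [mul_smul_comm]
    exact Submodule.smul_mem _ _ (hbas l)
  rw [Submodule.mul_le]
  intro m hm x hx
  obtain ⟨r, rfl⟩ := Submodule.mem_span_singleton.1 hm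
  rw [smul_mul_assoc]
  exact Submodule.smul_mem _ _ (hall x hx)

end Fermat.Agent.S26.G
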