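/-
S26 / block G (Theorem B, pure field theory, Mathlib only; architect helper187).
LEAF G-27.  Tower law for the iterates of an endomorphism, with `IntermediateField.relfinrank`
(Mathlib/FieldTheory/Relrank.lean).
Proof.  `relfinrank_fieldRange_pow`: induction on `k`.  `k = 0`: `(1 : Ω →ₐ[K] Ω).fieldRange = ⊤`, `relfinrank_self`.
Step: `(ψ ^ (k + 1)).fieldRange = (ψ ^ k).fieldRange.map ψ` (`pow_succ'`, `AlgHom.fieldRange_eq_map`, `IntermediateField.map_map`),
`ψ.fieldRange = (⊤ : IntermediateField K Ω).map ψ`, `relfinrank_map_map`, `relfinrank_mul_relfinrank`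
(`A := (ψ^(k+1)).fieldRange ≤ B := ψ.fieldRange ≤ C := ⊤`), `relfinrank_top_right`.
`relfinrank_map_fieldRange`: `relfinrank_mul_relfinrank` with `A := (ψ^k).fieldRange.map σ ≤ B := σ.fieldRange = ⊤.map σ ≤ E`.
-/
import Fermat.Agent.S26.G.Basic

set_option autoImplicit false

universe u

namespace Fermat.Agent.S26.G

open Module IntermediateField

variable {K Ω : Type u} [Field K] [Field Ω] [Algebra K Ω]

private theorem tower_fieldRange_pow_succ (ψ : Ω →ₐ[K] Ω) (k : ℕ) :
    (ψ ^ (k + 1)).fieldRange = (ψ ^ k).fieldRange.map ψ := by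
  rw [pow_succ', AlgHom.fieldRange_eq_map, AlgHom.fieldRange_eq_map, IntermediateField.map_map]
  rfl

theorem relfinrank_fieldRange_pow (ψ : Ω →ₐ[K] Ω) (k : ℕ) :
    IntermediateField.relfinrank (ψ ^ k).fieldRange ⊤ = (Module.finrank ψ.fieldRange Ω) ^ k := by
  induction k with
  | zero =>
    have h : (ψ ^ 0).fieldRange = ⊤ := by
      rw [pow_zero, AlgHom.fieldRange_eq_top]
      exact Function.surjective_id
    rw [h, relfinrank_self, pow_zero]
  | succ k ih =>
    have h1 : (ψ ^ (k + 1)).fieldRange ≤ ψ.fieldRange := by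
      rw [tower_fieldRange_pow_succ, AlgHom.fieldRange_eq_map ψ]
      exact IntermediateField.map_mono ψ le_top
    have h2 := relfinrank_mul_relfinrank h1 (le_top : ψ.fieldRange ≤ ⊤)
    have h3 : relfinrank (ψ ^ (k + 1)).fieldRange ψ.fieldRange =
        (Module.finrank ψ.fieldRange Ω) ^ k := by
      rw [tower_fieldRange_pow_succ]
      conv_lhs => rw [AlgHom.fieldRange_eq_map ψ]
      rw [relfinrank_map_map, ih]
    rw [← h2, relfinrank_top_right, h3, pow_succ (Module.finrank ψ.fieldRange Ω)]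

theorem relfinrank_map_fieldRange {Ω' : Type u} [Field Ω'] [Algebra K Ω'] (σ : Ω →ₐ[K] Ω')
    (ψ : Ω →ₐ[K] Ω) (k : ℕ) (E : IntermediateField K Ω') (hE : σ.fieldRange ≤ E) :
    IntermediateField.relfinrank ((ψ ^ k).fieldRange.map σ) E =
      (Module.finrank ψ.fieldRange Ω) ^ k * IntermediateField.relfinrank σ.fieldRange E := by
  have h1 : (ψ ^ k).fieldRange.map σ ≤ σ.fieldRange := by
    rw [AlgHom.fieldRange_eq_map σ]
    exact IntermediateField.map_mono σ le_top
  have h3 : relfinrank ((ψ ^ k).fieldRange.map σ) σ.fieldRange =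
      (Module.finrank ψ.fieldRange Ω) ^ k := by
    conv_lhs => rw [AlgHom.fieldRange_eq_map σ]
    rw [relfinrank_map_map, relfinrank_fieldRange_pow]
  rw [← relfinrank_mul_relfinrank h1 hE, h3]

end Fermat.Agent.S26.G
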