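/-
S26 / block G : THEOREM B (pure field theory, Mathlib only).
Assembly (architect helper187): `Low/Main` (G1b), `Up/Main` (G1c), `Step/Main` (G2 + G3 + G4), `Numeric`.
-/
import Fermat.Agent.S26.G.Low.Main
import Fermat.Agent.S26.G.Up.Main
import Fermat.Agent.S26.G.Step.Main
import Fermat.Agent.S26.G.Numeric

set_option autoImplicit false

universe u

namespace Fermat.Agent.S26.G

/-- **Theorem B.**  `F / K` of transcendence degree `g`, `ψ : F → F` a `K`-embedding of finite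
degree, `V ⊆ F` a finite dimensional subspace whose ratios generate `F`, `σ : F → F'` any
`K`-embedding.  If for every `k` the linear systems `σ ψ^k V` and `(σ V)^(n^(2k))` are
"valuatively proportional", then `[F : ψ F] = n^(2g)`. -/
theorem finrank_eq_pow {K F F' : Type u} [Field K] [Field F] [Field F'] [Algebra K F]
    [Algebra K F'] (g n : ℕ) (hn : 0 < n)
    (y : Fin g → F) (hy : IsTranscendenceBasis K y)
    (σ : F →ₐ[K] F') (ψ : F →ₐ[K] F) (hfin : FiniteDimensional ψ.fieldRange F)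
    (V : Submodule K F) (hVfd : FiniteDimensional K V)
    (hVgen : IntermediateField.adjoin K (ratios V) = ⊤)
    (hc : ∀ k : ℕ, ∃ h : F', h ≠ 0 ∧ ∀ O : ValuationSubring F', ContainsConst K O →
      ∃ ϑ ϑ' : F', IsValGen O (σ '' (V : Set F)) ϑ ∧
        IsValGen O ((fun v => σ (ψ^[k] v)) '' (V : Set F)) ϑ' ∧
        IsValUnit O (ϑ' / (h * ϑ ^ (n ^ (2 * k))))) :
    Module.finrank ψ.fieldRange F = n ^ (2 * g) := by
  have hgen : ratioField V = ⊤ := hVgen
  -- a nonzero element of `V`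
  obtain ⟨v0, hv0, h0⟩ : ∃ v0 ∈ V, v0 ≠ 0 := by
    obtain ⟨h, -, hh⟩ := hc 0
    obtain ⟨ϑ, -, ⟨-, -, w, ⟨v, hv, rfl⟩, hw0, -⟩, -, -⟩ :=
      hh ⊤ (fun _ => ValuationSubring.mem_top _)
    exact ⟨v, hv, fun h => hw0 (by rw [h, map_zero])⟩
  have hL := pow_le_mul_hilb y hy V hgen hv0 h0
  obtain ⟨C, hU⟩ := exists_hilb_le y hy V hgen hv0 h0
  have key : ∀ k : ℕ, (Module.finrank ψ.fieldRange F) ^ k ≤
      g ^ g * C * 2 ^ g * (n ^ (2 * g)) ^ k ∧
      (n ^ (2 * g)) ^ k ≤ g ^ g * C * 2 ^ g * (Module.finrank ψ.fieldRange F) ^ k := by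
    intro k
    obtain ⟨h, hh, hck⟩ := hc k
    have he : 0 < n ^ (2 * k) := pow_pos hn _
    obtain ⟨c, c', h1, h2⟩ := step σ ψ V hgen hv0 h0 k (n ^ (2 * k)) he hh hck
    have hb := bound_of_step (hilb V) he hL hU h1 h2
    have e1 : (n ^ (2 * k)) ^ g = (n ^ (2 * g)) ^ k := by
      rw [← pow_mul, ← pow_mul]
      congr 1
      ring
    rwa [e1] at hb
  exact eq_of_pow_le_mul_pow (fun k => (key k).1) (fun k => (key k).2)

end Fermat.Agent.S26.G
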