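/-
S26 / block G (Theorem B, pure field theory, Mathlib only; architect helper187).
LEAF G-28.  Calculus of valuative generators (`IsValGen`, `IsValUnit`, `ContainsConst` in `G/Defs.lean`).
Proof.  `pow`: induction on `e`; `A ^ 0 = 1` (`Submodule.mem_one`); `A ^ (e + 1) = A ^ e * A`, `Submodule.mul_induction_on`
(`(x * y) / (ϑ ^ e * ϑ) = (x / ϑ ^ e) * (y / ϑ)`, sums: `add_div`); the generator is `w ^ e`.
`span_singleton_mul`: `mem_span_singleton_mul`, `mul_div_mul_left`.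
`exists_of_sup`: `Submodule.mem_sup`; `w = p + q`, `p / θ ∈ O`, `q / θ = (q / θ') * (θ' / θ) ∈ O`; `θ / v ∈ O` for the generator
`v ∈ P`; `w / v = (w / θ) * (θ / v)`.  Symmetric for `Q` using `(θ' / θ)⁻¹ ∈ O`.
-/
import Fermat.Agent.S26.G.Hilb.Scale

set_option autoImplicit false

universe u

namespace Fermat.Agent.S26.G

open Module IntermediateField

variable {K Ω : Type u} [Field K] [Field Ω] [Algebra K Ω]

theorem IsValGen.pow {O : ValuationSubring Ω} (hO : ContainsConst K O) {A : Submodule K Ω} {ϑ : Ω}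
    (h : IsValGen O (A : Set Ω) ϑ) (e : ℕ) :
    IsValGen O ((A ^ e : Submodule K Ω) : Set Ω) (ϑ ^ e) := by
  obtain ⟨h0, hall, w₀, hw₀, hw₀0, hw₀O⟩ := h
  refine ⟨pow_ne_zero e h0, ?_, w₀ ^ e, Submodule.pow_mem_pow A hw₀ e, pow_ne_zero e hw₀0, ?_⟩
  · induction e with
    | zero =>
      intro w hw
      rw [pow_zero] at hw
      obtain ⟨a, rfl⟩ := Submodule.mem_one.1 hw
      rw [pow_zero, div_one]
      exact hO a
    | succ e ih =>
      intro w hw
      rw [pow_succ] at hw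
      have hw' : w ∈ A ^ e * A := hw
      induction hw' using Submodule.mul_induction_on' with
      | mem_mul_mem x hx y hy =>
        have e1 : x * y / ϑ ^ (e + 1) = (x / ϑ ^ e) * (y / ϑ) := by
          rw [pow_succ, mul_div_mul_comm]
        rw [e1]
        exact mul_mem (ih x hx) (hall y hy)
      | add x _ y _ hx hy =>
        rw [add_div]
        exact add_mem (hx ‹_›) (hy ‹_›)
  · rw [← div_pow]
    exact pow_mem hw₀O e

theorem IsValGen.span_singleton_mul {O : ValuationSubring Ω} {A : Submodule K Ω} {ϑ : Ω}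
    (h : IsValGen O (A : Set Ω) ϑ) {c : Ω} (hc : c ≠ 0) :
    IsValGen O ((Submodule.span K {c} * A : Submodule K Ω) : Set Ω) (c * ϑ) := by
  obtain ⟨h0, hall, w₀, hw₀, hw₀0, hw₀O⟩ := h
  refine ⟨mul_ne_zero hc h0, ?_, c * w₀, Submodule.mem_span_singleton_mul.2 ⟨w₀, hw₀, rfl⟩,
    mul_ne_zero hc hw₀0, ?_⟩
  · intro w hw
    obtain ⟨a, ha, rfl⟩ := Submodule.mem_span_singleton_mul.1 hw
    rw [mul_div_mul_left _ _ hc]
    exact hall a ha
  · rw [mul_div_mul_left _ _ hc]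
    exact hw₀O

theorem IsValGen.exists_of_sup {O : ValuationSubring Ω} {P Q : Submodule K Ω} {θ θ' : Ω}
    (hP : IsValGen O (P : Set Ω) θ) (hQ : IsValGen O (Q : Set Ω) θ')
    (hu : IsValUnit O (θ' / θ)) {w : Ω} (hw : w ∈ P ⊔ Q) :
    (∃ v ∈ P, v ≠ 0 ∧ w / v ∈ O) ∧ ∃ v ∈ Q, v ≠ 0 ∧ w / v ∈ O := by
  obtain ⟨h0, hall, v, hv, hv0, hvO⟩ := hP
  obtain ⟨h0', hall', v', hv', hv0', hvO'⟩ := hQ
  obtain ⟨hu1, hu2, -⟩ := hu
  obtain ⟨p, hp, q, hq, rfl⟩ := Submodule.mem_sup.1 hw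
  have hθ : (p + q) / θ ∈ O := by
    have e1 : q / θ = (q / θ') * (θ' / θ) := by
      rw [div_mul_div_cancel₀ h0']
    rw [add_div, e1]
    exact add_mem (hall p hp) (mul_mem (hall' q hq) hu1)
  have hθ' : (p + q) / θ' ∈ O := by
    have e1 : (p + q) / θ' = ((p + q) / θ) * (θ' / θ)⁻¹ := by
      rw [inv_div, div_mul_div_cancel₀ h0]
    rw [e1]
    exact mul_mem hθ hu2
  refine ⟨⟨v, hv, hv0, ?_⟩, ⟨v', hv', hv0', ?_⟩⟩
  · have e1 : (p + q) / v = ((p + q) / θ) * (θ / v) := by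
      rw [div_mul_div_cancel₀ h0]
    rw [e1]
    exact mul_mem hθ hvO
  · have e1 : (p + q) / v' = ((p + q) / θ') * (θ' / v') := by
      rw [div_mul_div_cancel₀ h0']
    rw [e1]
    exact mul_mem hθ' hvO'

end Fermat.Agent.S26.G
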